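import Mathlib.NumberTheory.FLT.Four
import Mathlib.NumberTheory.FLT.Three
import Fermat.Prelude.Def_FLTPrelim_FreyPackage

set_option autoImplicit false

namespace Fermat.Agent.S01.helper841

/-- Root wiring: Fermat's Last Theorem follows from (S02) "a counterexample for a prime
`p ≥ 5` gives a Frey package" and (S03) "there is no Frey package", using Mathlib's
`fermatLastTheoremThree` and `fermatLastTheoremFour`. -/
theorem flt_of_frey
    (h02 : ∀ (a b c : ℤ), a ≠ 0 → b ≠ 0 → c ≠ 0 → ∀ (p : ℕ), p.Prime → 5 ≤ p →
      a ^ p + b ^ p = c ^ p → Nonempty FreyPackage)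
    (h03 : FreyPackage → False)
    (n : ℕ) (hn : 3 ≤ n) (a b c : ℕ) (ha : 0 < a) (hb : 0 < b) (hc : 0 < c) :
    a ^ n + b ^ n ≠ c ^ n := by
  have key : FermatLastTheorem := by
    apply FermatLastTheorem.of_odd_primes
    intro p pp hodd
    by_cases h5 : 5 ≤ p
    · rw [fermatLastTheoremFor_iff_int]
      intro x y z hx hy hz H
      obtain ⟨P⟩ := h02 x y z hx hy hz p pp h5 H
      exact h03 P
    · have h3 : p = 3 := by
        have h2 : 2 ≤ p := pp.two_le
        have hlt : p < 5 := Nat.lt_of_not_le h5
        interval_cases p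
        · exact absurd hodd (by decide)
        · rfl
        · exact absurd pp (by decide)
      subst h3
      exact fermatLastTheoremThree
  exact key n hn a b c ha.ne' hb.ne' hc.ne'

end Fermat.Agent.S01.helper841
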